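import Mathlib
import Fermat.Prelude.Def_CuspForm_HeckeAlgebra
import Fermat.Prelude.Def_CuspForm_IntegralStructure
import Fermat.Prelude.Thm_CongruenceSubgroup_one_mem_strictPeriods_Gamma0
import Fermat.Prelude.Thm_ModularFormClass_qCoeff_heckeT
import Fermat.Prelude.Thm_ModularFormClass_qCoeff_heckeU
import Fermat.Prelude.Thm_CuspForm_intLattice_fg
import Fermat.Prelude.Thm_ModularForm_sturm_bound_Gamma0

/-!
# Simultaneous Hecke eigenvectors and normalised eigenforms
-/

set_option autoImplicit false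
set_option linter.style.haveILetI false
set_option linter.unusedSectionVars false

namespace Fermat.Agent.Eigen

open CongruenceSubgroup ModularFormClass UpperHalfPlane

section Coeff

variable {N : ℕ} {k : ℤ}

theorem one_mem_strictPeriods (N : ℕ) :
    (1 : ℝ) ∈ (Subgroup.map (Matrix.SpecialLinearGroup.mapGL ℝ) (Gamma0 N)).strictPeriods :=
  CongruenceSubgroup.one_mem_strictPeriods_Gamma0 N

theorem qCoeff_add (f g : CuspForm (Gamma0 N) k) (n : ℕ) :
    qCoeff ⇑(f + g) n = qCoeff ⇑f n + qCoeff ⇑g n := by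
  simp only [qCoeff, FunLike.coe_add]
  rw [ModularForm.qExpansion_add one_pos (one_mem_strictPeriods N) f g, map_add]

theorem qCoeff_zero (n : ℕ) : qCoeff ⇑(0 : CuspForm (Gamma0 N) k) n = 0 := by
  simp only [qCoeff, FunLike.coe_zero]
  rw [UpperHalfPlane.qExpansion_zero, map_zero]

theorem qCoeff_smul (c : ℂ) (f : CuspForm (Gamma0 N) k) (n : ℕ) :
    qCoeff ⇑(c • f) n = c * qCoeff ⇑f n := by
  have h1 : ⇑(c • f) = c • ⇑f := rfl
  simp only [qCoeff, h1]
  rw [ModularForm.qExpansion_smul one_pos (one_mem_strictPeriods N) c f]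
  simp

theorem qCoeff_neg (f : CuspForm (Gamma0 N) k) (n : ℕ) :
    qCoeff ⇑(-f) n = -qCoeff ⇑f n := by
  rw [show -f = (-1 : ℂ) • f by simp, qCoeff_smul]; ring

theorem qCoeff_sub (f g : CuspForm (Gamma0 N) k) (n : ℕ) :
    qCoeff ⇑(f - g) n = qCoeff ⇑f n - qCoeff ⇑g n := by
  rw [sub_eq_add_neg, qCoeff_add, qCoeff_neg, sub_eq_add_neg]

/-- The `n`-th coefficient as a linear map. -/
noncomputable def coeffLin (N : ℕ) (k : ℤ) (n : ℕ) : CuspForm (Gamma0 N) k →ₗ[ℂ] ℂ where
  toFun f := qCoeff f n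
  map_add' f g := qCoeff_add f g n
  map_smul' c f := qCoeff_smul c f n

@[simp] theorem coeffLin_apply (f : CuspForm (Gamma0 N) k) (n : ℕ) :
    coeffLin N k n f = qCoeff f n := rfl

theorem qCoeff_zero_eq_zero (f : CuspForm (Gamma0 N) k) : qCoeff f 0 = 0 :=
  CuspFormClass.qExpansion_coeff_zero f one_pos (one_mem_strictPeriods N)

theorem eq_zero_of_forall_qCoeff_eq_zero [NeZero N] {f : CuspForm (Gamma0 N) k}
    (h : ∀ n, qCoeff f n = 0) : f = 0 := by
  have hmf : (ModularFormClass.modularForm f : ModularForm (Gamma0 N) k) = 0 := by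
    refine ModularForm.sturm_bound_Gamma0 N _ fun n _ ↦ h n
  have hcoe : (⇑f : ℍ → ℂ) = 0 := by
    have := congrArg (fun F : ModularForm (Gamma0 N) k ↦ (⇑F : ℍ → ℂ)) hmf
    simpa using this
  exact DFunLike.coe_injective (hcoe.trans FunLike.coe_zero.symm)

theorem eq_of_forall_qCoeff_eq [NeZero N] {f g : CuspForm (Gamma0 N) k}
    (h : ∀ n, qCoeff f n = qCoeff g n) : f = g := by
  rw [← sub_eq_zero]
  exact eq_zero_of_forall_qCoeff_eq_zero fun n => by rw [qCoeff_sub, h, sub_self]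

theorem qCoeff_heckeTLin {ℓ : ℕ} (hℓ : ℓ.Prime) (hℓN : ¬ ℓ ∣ N) (f : CuspForm (Gamma0 N) 2) (n : ℕ) :
    qCoeff (CuspForm.heckeTLin 2 hℓ hℓN f) n =
      qCoeff f (n * ℓ) + if ℓ ∣ n then (ℓ : ℂ) * qCoeff f (n / ℓ) else 0 := by
  have h := ModularFormClass.qCoeff_heckeT f (one_mem_strictPeriods N) hℓ.ne_zero n
  rw [CuspForm.coe_heckeTLin_apply, h, ModularForm.coeffHeckeT_apply]
  norm_num

theorem qCoeff_heckeULin [NeZero N] {q : ℕ} (hq : q.Prime) (hqN : q ∣ N) (f : CuspForm (Gamma0 N) 2)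
    (n : ℕ) : qCoeff (CuspForm.heckeULin 2 hqN f) n = qCoeff f (n * q) := by
  have h := ModularFormClass.qCoeff_heckeU f (one_mem_strictPeriods N) hq.ne_zero n
  rw [CuspForm.coe_heckeULin_apply, h, ModularForm.coeffHeckeU_apply]

theorem mem_intLattice_iff (f : CuspForm (Gamma0 N) k) :
    f ∈ CuspForm.intLattice N k ↔ ∀ n : ℕ, ∃ m : ℤ, qCoeff f n = (m : ℂ) :=
  P2MW.S_CuspForm_intLattice_fg.W3WsD.mem_intLattice_iff f

theorem finiteDimensional_cuspForm (N : ℕ) [NeZero N] (k : ℤ) :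
    FiniteDimensional ℂ (CuspForm (Gamma0 N) k) := by
  let B := (k * (Gamma0 N).index).toNat / 12
  let φ : CuspForm (Gamma0 N) k →ₗ[ℂ] (Fin (B + 1) → ℂ) :=
    LinearMap.pi fun i => coeffLin N k i
  refine FiniteDimensional.of_injective φ ?_
  rw [injective_iff_map_eq_zero]
  intro f hf
  have hmf : (ModularFormClass.modularForm f : ModularForm (Gamma0 N) k) = 0 := by
    refine ModularForm.sturm_bound_Gamma0 N _ fun n hn ↦ ?_
    have := congrFun hf ⟨n, Nat.lt_succ_of_le hn⟩
    exact this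
  have hcoe : (⇑f : ℍ → ℂ) = 0 := by
    have := congrArg (fun F : ModularForm (Gamma0 N) k ↦ (⇑F : ℍ → ℂ)) hmf
    simpa using this
  exact DFunLike.coe_injective (hcoe.trans FunLike.coe_zero.symm)

end Coeff

section Recursion

variable {R : Type*} [CommRing R]

/-- A sequence satisfying the Hecke relations for all primes is multiplicative. -/
theorem mul_of_coprime_of_relations {e a : ℕ → R} (h1 : a 1 = 1)
    (h : ∀ ℓ : ℕ, ℓ.Prime → ∀ n : ℕ,
      a (n * ℓ) + (if ℓ ∣ n then e ℓ * a (n / ℓ) else 0) = a ℓ * a n) :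
    ∀ m n : ℕ, m.Coprime n → a (m * n) = a m * a n := by
  intro m
  induction m using Nat.strong_induction_on with
  | _ m ih =>
    intro n hmn
    rcases Nat.lt_or_ge m 2 with hm | hm
    · interval_cases m
      · have : n = 1 := by simpa using hmn
        subst this
        rw [h1, mul_one, mul_one]
      · rw [one_mul, h1, one_mul]
    · obtain ⟨ℓ, hℓ, k, rfl⟩ := Nat.exists_prime_and_dvd (by omega : m ≠ 1)
      have hk0 : 0 < k := Nat.pos_of_ne_zero (by rintro rfl; simp at hm)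
      have hklt : k < ℓ * k := by nlinarith [hℓ.two_le]
      have hkn : k.Coprime n := Nat.Coprime.coprime_dvd_left ⟨ℓ, by ring⟩ hmn
      have hℓn : ℓ.Coprime n := Nat.Coprime.coprime_dvd_left ⟨k, rfl⟩ hmn
      have hℓn' : ¬ ℓ ∣ n := (Nat.Prime.coprime_iff_not_dvd hℓ).mp hℓn
      have e1 := h ℓ hℓ (k * n)
      have e2 := h ℓ hℓ k
      have hdvd : ℓ ∣ k * n ↔ ℓ ∣ k := by
        rw [hℓ.dvd_mul]; tauto
      rw [show ℓ * k * n = k * n * ℓ by ring, show ℓ * k = k * ℓ by ring]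
      rw [ih k hklt n hkn] at e1
      by_cases hd : ℓ ∣ k
      · obtain ⟨k', rfl⟩ := hd
        rw [if_pos (hdvd.mpr ⟨k', rfl⟩)] at e1
        rw [if_pos ⟨k', rfl⟩] at e2
        rw [show ℓ * k' * n / ℓ = k' * n by
          rw [mul_assoc]; exact Nat.mul_div_cancel_left _ hℓ.pos] at e1
        rw [Nat.mul_div_cancel_left _ hℓ.pos] at e2
        have hk'n : k'.Coprime n := Nat.Coprime.coprime_dvd_left ⟨ℓ, by ring⟩ hkn
        have hk'lt : k' < ℓ * (ℓ * k') := by
          have : 0 < k' := Nat.pos_of_ne_zero (by rintro rfl; simp at hk0)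
          nlinarith [hℓ.two_le]
        rw [ih k' hk'lt n hk'n] at e1
        linear_combination e1 - a n * e2
      · rw [if_neg (fun h => hd (hdvd.mp h))] at e1
        rw [if_neg hd] at e2
        linear_combination e1 - a n * e2

end Recursion

/-- A cusp form whose first coefficient is `1` and which is an eigenvector of all Hecke operators
is a normalised eigenform. -/
theorem isNormalizedEigenform_of_eigen {N : ℕ} [NeZero N] {f : CuspForm (Gamma0 N) 2}
    (h1 : qCoeff f 1 = 1)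
    (hT : ∀ (ℓ : ℕ) (hℓ : ℓ.Prime) (hℓN : ¬ ℓ ∣ N), ∃ c : ℂ, CuspForm.heckeTLin 2 hℓ hℓN f = c • f)
    (hU : ∀ (q : ℕ) (_ : q.Prime) (hqN : q ∣ N), ∃ c : ℂ, CuspForm.heckeULin 2 hqN f = c • f) :
    f.IsNormalizedEigenform := by
  have key : ∀ ℓ : ℕ, ℓ.Prime → ∀ n : ℕ,
      qCoeff f (n * ℓ) + (if ℓ ∣ n then (if ℓ ∣ N then (0 : ℂ) else (ℓ : ℂ)) * qCoeff f (n / ℓ) else 0)
        = qCoeff f ℓ * qCoeff f n := by
    intro ℓ hℓ n
    by_cases hN : ℓ ∣ N
    · obtain ⟨c, hc⟩ := hU ℓ hℓ hN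
      have e : ∀ n, qCoeff f (n * ℓ) = c * qCoeff f n := by
        intro n
        rw [← qCoeff_heckeULin hℓ hN, hc, qCoeff_smul]
      have hcℓ : qCoeff f ℓ = c := by
        have := e 1
        rwa [one_mul, h1, mul_one] at this
      rw [e, hcℓ]
      simp [hN]
    · obtain ⟨c, hc⟩ := hT ℓ hℓ hN
      have e : ∀ n, qCoeff f (n * ℓ) + (if ℓ ∣ n then (ℓ : ℂ) * qCoeff f (n / ℓ) else 0) =
          c * qCoeff f n := by
        intro n
        rw [← qCoeff_heckeTLin hℓ hN, hc, qCoeff_smul]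
      have hcℓ : qCoeff f ℓ = c := by
        have := e 1
        rwa [one_mul, h1, mul_one, if_neg (by
          intro h; exact hℓ.one_lt.ne' (Nat.dvd_one.mp h)), add_zero] at this
      rw [hcℓ, ← e n]
      simp [hN]
  refine ⟨h1, mul_of_coprime_of_relations h1 key, ?_, ?_⟩
  · intro p r hp hpN
    have := key p hp (p ^ (r + 1))
    rw [if_pos (dvd_pow_self p (by omega)), if_neg hpN, ← pow_succ,
      show p ^ (r + 1) / p = p ^ r by rw [pow_succ]; exact Nat.mul_div_cancel _ hp.pos] at this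
    rw [show r + 2 = r + 1 + 1 by ring]
    linear_combination this
  · intro p r hp hpN
    have := key p hp (p ^ (r + 1))
    rw [if_pos (dvd_pow_self p (by omega)), if_pos hpN, ← pow_succ, zero_mul, add_zero] at this
    rw [show r + 2 = r + 1 + 1 by ring]
    exact this

/-- An eigenvector of all Hecke operators with vanishing first coefficient vanishes. -/
theorem eq_zero_of_eigen_of_qCoeff_one_eq_zero {N : ℕ} [NeZero N] {f : CuspForm (Gamma0 N) 2}
    (h1 : qCoeff f 1 = 0)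
    (hT : ∀ (ℓ : ℕ) (hℓ : ℓ.Prime) (hℓN : ¬ ℓ ∣ N), ∃ c : ℂ, CuspForm.heckeTLin 2 hℓ hℓN f = c • f)
    (hU : ∀ (q : ℕ) (_ : q.Prime) (hqN : q ∣ N), ∃ c : ℂ, CuspForm.heckeULin 2 hqN f = c • f) :
    f = 0 := by
  apply eq_zero_of_forall_qCoeff_eq_zero
  intro n
  induction n using Nat.strong_induction_on with
  | _ n ih =>
    rcases Nat.lt_or_ge n 2 with hn | hn
    · interval_cases n
      · exact qCoeff_zero_eq_zero f
      · exact h1
    · obtain ⟨ℓ, hℓ, k, rfl⟩ := Nat.exists_prime_and_dvd (by omega : n ≠ 1)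
      have hk0 : 0 < k := Nat.pos_of_ne_zero (by rintro rfl; simp at hn)
      have hklt : k < ℓ * k := by nlinarith [hℓ.two_le]
      have hk := ih k hklt
      rw [show ℓ * k = k * ℓ by ring]
      by_cases hN : ℓ ∣ N
      · obtain ⟨c, hc⟩ := hU ℓ hℓ hN
        rw [← qCoeff_heckeULin hℓ hN, hc, qCoeff_smul, hk, mul_zero]
      · obtain ⟨c, hc⟩ := hT ℓ hℓ hN
        have e := qCoeff_heckeTLin hℓ hN f k
        rw [hc, qCoeff_smul, hk, mul_zero] at e
        by_cases hd : ℓ ∣ k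
        · rw [if_pos hd, ih (k / ℓ) (lt_of_le_of_lt (Nat.div_le_self _ _) hklt), mul_zero, add_zero] at e
          exact e.symm
        · rw [if_neg hd, add_zero] at e
          exact e.symm

/-- A commuting family of endomorphisms of a finite dimensional complex vector space stabilising a
nonzero subspace has a common eigenvector in it. -/
theorem exists_common_eigenvector {V : Type*} [AddCommGroup V] [Module ℂ V] [FiniteDimensional ℂ V]
    (T : Set (Module.End ℂ V)) (hT : ∀ a ∈ T, ∀ b ∈ T, Commute a b) :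
    ∀ (n : ℕ) (W : Submodule ℂ V), Module.finrank ℂ W ≤ n → W ≠ ⊥ →
      (∀ a ∈ T, ∀ w ∈ W, a w ∈ W) → ∃ y ∈ W, y ≠ 0 ∧ ∀ a ∈ T, ∃ c : ℂ, a y = c • y := by
  intro n
  induction n with
  | zero =>
    intro W hW hne _
    exact absurd (Submodule.finrank_eq_zero.mp (Nat.le_zero.mp hW)) hne
  | succ n ih =>
    intro W hW hne hstab
    by_cases hall : ∀ a ∈ T, ∃ c : ℂ, ∀ w ∈ W, a w = c • w
    · obtain ⟨y, hy, hy0⟩ := Submodule.exists_mem_ne_zero_of_ne_bot hne
      exact ⟨y, hy, hy0, fun a ha => (hall a ha).imp fun c hc => hc y hy⟩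
    · push Not at hall
      obtain ⟨a, ha, hna⟩ := hall
      haveI : Nontrivial W := Submodule.nontrivial_iff_ne_bot.mpr hne
      obtain ⟨μ, hμ⟩ := Module.End.exists_eigenvalue (LinearMap.restrict a (hstab a ha) : Module.End ℂ W)
      obtain ⟨v, hv⟩ := hμ.exists_hasEigenvector
      have hv1 : a (v : V) = μ • (v : V) := by
        have := congrArg Subtype.val hv.apply_eq_smul
        simpa using this
      have hv0 : (v : V) ≠ 0 := fun h => hv.2 (Subtype.ext h)
      let W' : Submodule ℂ V := W ⊓ LinearMap.ker (a - μ • 1)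
      have hmem : ∀ w, w ∈ W' ↔ w ∈ W ∧ a w = μ • w := by
        intro w
        simp [W', sub_eq_zero]
      have hlt : W' < W := by
        refine lt_of_le_of_ne inf_le_left ?_
        intro heq
        obtain ⟨w, hw, hwne⟩ := hna μ
        rw [← heq] at hw
        exact hwne ((hmem w).mp hw).2
      have hfin : Module.finrank ℂ W' < Module.finrank ℂ W := Submodule.finrank_lt_finrank_of_lt hlt
      obtain ⟨y, hy, hy0, hyT⟩ := ih W' (by omega) (by
        intro hbot
        have : (v : V) ∈ W' := (hmem _).mpr ⟨v.2, hv1⟩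
        rw [hbot, Submodule.mem_bot] at this
        exact hv0 this) (by
        intro b hb w hw
        rw [hmem] at hw ⊢
        refine ⟨hstab b hb w hw.1, ?_⟩
        have hc : a (b w) = b (a w) := congrArg (fun f : Module.End ℂ V => f w) (hT a ha b hb)
        rw [hc, hw.2, map_smul])
      exact ⟨y, ((hmem y).mp hy).1, hy0, hyT⟩

end Fermat.Agent.Eigen
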