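import Fermat.Agent.Eigen.Basic
import Fermat.Agent.S22

set_option autoImplicit false
set_option linter.style.haveILetI false

/-!
# The character of the Hecke algebra attached to a normalised eigenform
-/

namespace Fermat.Agent.Eigen

open CongruenceSubgroup ModularFormClass CuspForm

variable {N : ℕ} [NeZero N] {f : CuspForm (Gamma0 N) 2}

theorem heckeTLin_eq_smul (hf : f.IsNormalizedEigenform) {ℓ : ℕ} (hℓ : ℓ.Prime) (hℓN : ¬ ℓ ∣ N) :
    heckeTLin 2 hℓ hℓN f = qCoeff f ℓ • f := by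
  apply eq_of_forall_qCoeff_eq
  intro n
  rw [qCoeff_heckeTLin, qCoeff_smul]
  rcases eq_or_ne n 0 with rfl | hn
  · simp [qCoeff_zero_eq_zero]
  obtain ⟨r, m, hm, rfl⟩ := Nat.exists_eq_pow_mul_and_not_dvd hn ℓ hℓ.ne_one
  have hcop : ∀ j, Nat.Coprime (ℓ ^ j) m := fun j =>
    Nat.Coprime.pow_left _ ((Nat.Prime.coprime_iff_not_dvd hℓ).mpr hm)
  rcases r with _ | r
  · rw [pow_zero, one_mul, if_neg hm, add_zero, mul_comm m ℓ]
    have := hf.qCoeff_mul_of_coprime ℓ m (by simpa using hcop 1)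
    rw [this]
  · have h1 : ℓ ^ (r + 1) * m * ℓ = ℓ ^ (r + 2) * m := by ring
    have h2 : ℓ ^ (r + 1) * m / ℓ = ℓ ^ r * m := by
      rw [pow_succ, mul_assoc, mul_comm ℓ m, ← mul_assoc, Nat.mul_div_cancel _ hℓ.pos]
    rw [if_pos (Dvd.dvd.mul_right (dvd_pow_self ℓ (Nat.succ_ne_zero r)) m), h1, h2,
      hf.qCoeff_mul_of_coprime _ _ (hcop _), hf.qCoeff_mul_of_coprime _ _ (hcop _),
      hf.qCoeff_mul_of_coprime _ _ (hcop _), hf.qCoeff_prime_pow_of_not_dvd ℓ r hℓ hℓN]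
    ring

theorem heckeULin_eq_smul (hf : f.IsNormalizedEigenform) {q : ℕ} (hq : q.Prime) (hqN : q ∣ N) :
    heckeULin 2 hqN f = qCoeff f q • f := by
  apply eq_of_forall_qCoeff_eq
  intro n
  rw [qCoeff_heckeULin hq, qCoeff_smul]
  rcases eq_or_ne n 0 with rfl | hn
  · simp [qCoeff_zero_eq_zero]
  obtain ⟨r, m, hm, rfl⟩ := Nat.exists_eq_pow_mul_and_not_dvd hn q hq.ne_one
  have hcop : ∀ j, Nat.Coprime (q ^ j) m := fun j =>
    Nat.Coprime.pow_left _ ((Nat.Prime.coprime_iff_not_dvd hq).mpr hm)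
  have h1 : q ^ r * m * q = q ^ (r + 1) * m := by ring
  rw [h1, hf.qCoeff_mul_of_coprime _ _ (hcop _), hf.qCoeff_mul_of_coprime _ _ (hcop _)]
  rcases r with _ | r
  · rw [zero_add, pow_one, pow_zero, hf.qCoeff_one]
    ring
  · rw [hf.qCoeff_prime_pow_of_dvd q r hq hqN]
    ring

variable {S : Set ℕ}

theorem exists_eigenvalue (hf : f.IsNormalizedEigenform) (t : heckeAlgebra N 2 S) :
    ∃ c : ℂ, (t : Module.End ℂ (CuspForm (Gamma0 N) 2)) f = c • f := by
  obtain ⟨t, ht⟩ := t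
  change ∃ c : ℂ, t f = c • f
  induction ht using Algebra.adjoin_induction with
  | mem t ht =>
    rcases ht with ⟨ℓ, hℓ, hℓN, -, rfl⟩ | ⟨q, hqN, hq, -, rfl⟩
    · exact ⟨_, heckeTLin_eq_smul hf hℓ hℓN⟩
    · exact ⟨_, heckeULin_eq_smul hf hq hqN⟩
  | algebraMap n =>
    refine ⟨n, ?_⟩
    rw [Int.cast_smul_eq_zsmul]
    simp
  | add t s _ _ ht hs =>
    obtain ⟨c, hc⟩ := ht
    obtain ⟨d, hd⟩ := hs
    exact ⟨c + d, by rw [LinearMap.add_apply, hc, hd, add_smul]⟩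
  | mul t s _ _ ht hs =>
    obtain ⟨c, hc⟩ := ht
    obtain ⟨d, hd⟩ := hs
    exact ⟨d * c, by rw [Module.End.mul_apply, hd, map_smul, hc, smul_smul]⟩

/-- the character of the Hecke algebra attached to a normalised eigenform -/
noncomputable def eigenChar (hf : f.IsNormalizedEigenform) (S : Set ℕ) :
    heckeAlgebra N 2 S →+* ℂ where
  toFun t := qCoeff ((t : Module.End ℂ (CuspForm (Gamma0 N) 2)) f) 1
  map_one' := by
    change qCoeff f 1 = 1
    exact hf.qCoeff_one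
  map_mul' t s := by
    obtain ⟨c, hc⟩ := exists_eigenvalue hf t
    obtain ⟨d, hd⟩ := exists_eigenvalue hf s
    have h1 : ((t * s : heckeAlgebra N 2 S) : Module.End ℂ (CuspForm (Gamma0 N) 2)) f =
        (d * c) • f := by
      change (t : Module.End ℂ (CuspForm (Gamma0 N) 2)) ((s : Module.End ℂ _) f) = _
      rw [hd, map_smul, hc, smul_smul]
    rw [h1, hc, hd, qCoeff_smul, qCoeff_smul, qCoeff_smul, hf.qCoeff_one]
    ring
  map_zero' := qCoeff_zero 1
  map_add' t s := qCoeff_add _ _ 1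

theorem apply_eq_eigenChar_smul (hf : f.IsNormalizedEigenform) (t : heckeAlgebra N 2 S) :
    (t : Module.End ℂ (CuspForm (Gamma0 N) 2)) f = eigenChar hf S t • f := by
  obtain ⟨c, hc⟩ := exists_eigenvalue hf t
  have h1 : eigenChar hf S t = c := by
    change qCoeff ((t : Module.End ℂ (CuspForm (Gamma0 N) 2)) f) 1 = c
    rw [hc, qCoeff_smul, hf.qCoeff_one, mul_one]
  rw [h1, hc]

theorem eigenChar_T (hf : f.IsNormalizedEigenform) {ℓ : ℕ} (hℓ : ℓ.Prime) (hℓN : ¬ ℓ ∣ N)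
    (hℓS : ℓ ∉ S) : eigenChar hf S (heckeAlgebra.T hℓ hℓN hℓS) = qCoeff f ℓ := by
  change qCoeff (heckeTLin 2 hℓ hℓN f) 1 = _
  rw [heckeTLin_eq_smul hf, qCoeff_smul, hf.qCoeff_one, mul_one]

theorem eigenChar_U (hf : f.IsNormalizedEigenform) {q : ℕ} (hq : q.Prime) (hqN : q ∣ N)
    (hqS : q ∉ S) : eigenChar hf S (heckeAlgebra.U hq hqN hqS) = qCoeff f q := by
  change qCoeff (heckeULin 2 hqN f) 1 = _
  rw [heckeULin_eq_smul hf hq, qCoeff_smul, hf.qCoeff_one, mul_one]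

theorem isIntegral_eigenChar (hf : f.IsNormalizedEigenform) (t : heckeAlgebra N 2 S) :
    IsIntegral ℤ (eigenChar hf S t) := by
  haveI : Module.Finite ℤ (heckeAlgebra N 2 S) := Fermat.Agent.S22.result N 2 S
  have h : IsIntegral ℤ t := Algebra.IsIntegral.isIntegral t
  exact h.map (eigenChar hf S).toIntAlgHom

/-- the character with values in the algebraic integers -/
noncomputable def eigenCharInt (hf : f.IsNormalizedEigenform) (S : Set ℕ) :
    heckeAlgebra N 2 S →+* integralClosure ℤ ℂ where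
  toFun t := ⟨eigenChar hf S t, isIntegral_eigenChar hf t⟩
  map_one' := Subtype.ext (map_one _)
  map_mul' t s := Subtype.ext (map_mul _ t s)
  map_zero' := Subtype.ext (map_zero _)
  map_add' t s := Subtype.ext (map_add _ t s)

theorem coe_eigenCharInt (hf : f.IsNormalizedEigenform) (t : heckeAlgebra N 2 S) :
    (eigenCharInt hf S t : ℂ) = eigenChar hf S t := rfl

/-- the `q`-coefficients of a normalised eigenform at primes are algebraic integers -/
theorem isIntegral_qCoeff_prime (hf : f.IsNormalizedEigenform) {ℓ : ℕ} (hℓ : ℓ.Prime) :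
    IsIntegral ℤ (qCoeff f ℓ) := by
  by_cases hℓN : ℓ ∣ N
  · rw [← eigenChar_U hf hℓ hℓN (Set.notMem_empty ℓ)]
    exact isIntegral_eigenChar hf _
  · rw [← eigenChar_T hf hℓ hℓN (Set.notMem_empty ℓ)]
    exact isIntegral_eigenChar hf _

end Fermat.Agent.Eigen
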