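import Fermat.Agent.Eigen.Basic
import Fermat.Prelude.Def_CuspForm_HeckeLocal

/-!
# The Deligne–Serre lifting lemma

Every maximal ideal of the integral Hecke algebra is the reduction of the system of eigenvalues of
a normalised eigenform.
-/

set_option autoImplicit false
set_option linter.style.haveILetI false
set_option linter.unusedSectionVars false

namespace Fermat.Agent.Eigen

open CongruenceSubgroup ModularFormClass UpperHalfPlane CuspForm

variable {N : ℕ} [NeZero N]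

theorem coe_latticeRestrictHom_apply {S : Set ℕ} (t : heckeAlgebra N 2 S) (x : intLattice N 2) :
    ((((latticeRestrictHom N S t : heckeLatticeAlgebra N S) : Module.End ℤ (intLattice N 2)) x :
      intLattice N 2) : CuspForm (Gamma0 N) 2) =
      (t : Module.End ℂ (CuspForm (Gamma0 N) 2)) (x : CuspForm (Gamma0 N) 2) := rfl

theorem exists_eigenform_of_maximal (𝔪 : Ideal (heckeLatticeAlgebra N ∅)) [h𝔪 : 𝔪.IsMaximal] :
    ∃ (χ : heckeAlgebra N 2 ∅ →+* integralClosure ℤ ℂ) (g : CuspForm (Gamma0 N) 2)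
      (𝔐 : Ideal (integralClosure ℤ ℂ)), g.IsNormalizedEigenform ∧
      (∀ t : heckeAlgebra N 2 ∅, (t : Module.End ℂ (CuspForm (Gamma0 N) 2)) g = (χ t : ℂ) • g) ∧
      𝔐.IsMaximal ∧ 𝔐.comap χ = 𝔪.comap (latticeRestrictHom N ∅) := by
  haveI : Module.Finite ℤ (intLattice N 2) := intLattice.moduleFinite N
  haveI : IsNoetherianRing (heckeLatticeAlgebra N ∅) :=
    isNoetherian_of_tower ℤ (isNoetherian_of_isNoetherianRing_of_finite ℤ (heckeLatticeAlgebra N ∅))
  haveI : Module.Finite (heckeLatticeAlgebra N ∅) (intLattice N 2) :=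
    Module.Finite.of_restrictScalars_finite ℤ (heckeLatticeAlgebra N ∅) (intLattice N 2)
  have hann : Module.annihilator (heckeLatticeAlgebra N ∅) (intLattice N 2) = ⊥ := by
    rw [eq_bot_iff]
    intro t ht
    rw [Module.mem_annihilator] at ht
    rw [Ideal.mem_bot]
    exact Subtype.ext (LinearMap.ext fun x => ht x)
  obtain ⟨𝔭, h𝔭min, h𝔭𝔪⟩ := Ideal.exists_minimalPrimes_le (I := Module.annihilator
    (heckeLatticeAlgebra N ∅) (intLattice N 2)) (J := 𝔪) (by rw [hann]; exact bot_le)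
  have hass := Module.associatedPrimes.minimalPrimes_annihilator_subset_associatedPrimes
    (heckeLatticeAlgebra N ∅) (intLattice N 2) h𝔭min
  rw [AssociatedPrimes.mem_iff, isAssociatedPrime_iff] at hass
  obtain ⟨h𝔭, x, hx⟩ := hass
  have hx' : ∀ t : heckeLatticeAlgebra N ∅, t ∈ 𝔭 ↔ t • x = 0 := by
    intro t
    rw [hx, Submodule.mem_colon_singleton, Submodule.mem_bot]
  have hx0 : x ≠ 0 := by
    rintro rfl
    exact h𝔭.ne_top (by rw [Ideal.eq_top_iff_one, hx', smul_zero])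
  -- the subspace killed by `𝔭`
  let W : Submodule ℂ (CuspForm (Gamma0 N) 2) :=
    Submodule.span ℂ {z | ∃ w : intLattice N 2, (w : CuspForm (Gamma0 N) 2) = z ∧ ∀ t ∈ 𝔭, t • w = 0}
  have hWne : W ≠ ⊥ := by
    intro hbot
    have hmem : (x : CuspForm (Gamma0 N) 2) ∈ W := Submodule.subset_span ⟨x, rfl, fun t ht => (hx' t).mp ht⟩
    rw [hbot, Submodule.mem_bot] at hmem
    exact hx0 (Subtype.ext hmem)
  have hWstab : ∀ a ∈ heckeGenerators N 2 ∅, ∀ w ∈ W, a w ∈ W := by
    intro a ha w hw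
    have haA : a ∈ heckeAlgebra N 2 ∅ := Algebra.subset_adjoin ha
    induction hw using Submodule.span_induction with
    | mem z hz =>
      obtain ⟨w, rfl, hw⟩ := hz
      refine Submodule.subset_span ⟨(latticeRestrictHom N ∅ ⟨a, haA⟩) • w, rfl, fun t ht => ?_⟩
      rw [← mul_smul, mul_comm, mul_smul, hw t ht, smul_zero]
    | zero => rw [map_zero]; exact W.zero_mem
    | add u v _ _ hu hv => rw [map_add]; exact W.add_mem hu hv
    | smul c u _ hu => rw [map_smul]; exact W.smul_mem c hu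
  haveI : FiniteDimensional ℂ (CuspForm (Gamma0 N) 2) := finiteDimensional_cuspForm N 2
  obtain ⟨y, hyW, hy0, hyT⟩ := exists_common_eigenvector (heckeGenerators N 2 ∅)
    (fun a ha b hb => commute_of_mem_heckeGenerators ha hb) _ W le_rfl hWne hWstab
  have hy : ∀ t : heckeAlgebra N 2 ∅, ∃ c : ℂ, (t : Module.End ℂ (CuspForm (Gamma0 N) 2)) y = c • y := by
    rintro ⟨t, ht⟩
    induction ht using Algebra.adjoin_induction with
    | mem t ht => exact hyT t ht
    | algebraMap r =>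
      refine ⟨(r : ℂ), ?_⟩
      change (algebraMap ℤ (Module.End ℂ (CuspForm (Gamma0 N) 2)) r) y = (r : ℂ) • y
      rw [Algebra.algebraMap_eq_smul_one]
      exact (Int.cast_smul_eq_zsmul ℂ r y).symm
    | add a b _ _ ha hb =>
      obtain ⟨c, hc⟩ := ha
      obtain ⟨d, hd⟩ := hb
      refine ⟨c + d, ?_⟩
      change a y + b y = (c + d) • y
      rw [add_smul]
      exact congrArg₂ (· + ·) hc hd
    | mul a b _ _ ha hb =>
      obtain ⟨c, hc⟩ := ha
      obtain ⟨d, hd⟩ := hb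
      refine ⟨c * d, ?_⟩
      change a (b y) = (c * d) • y
      have hd' : b y = d • y := hd
      have hc' : a y = c • y := hc
      rw [hd', map_smul, hc', smul_smul, mul_comm]
  choose χf hχf using hy
  have huniq : ∀ c d : ℂ, c • y = d • y → c = d := fun c d h => smul_left_injective ℂ hy0 h
  let χ₀ : heckeAlgebra N 2 ∅ →+* ℂ :=
    { toFun := χf
      map_one' := huniq _ _ (by rw [← hχf, one_smul]; rfl)
      map_mul' := fun a b => huniq _ _ (by
        rw [← hχf]
        change (a : Module.End ℂ (CuspForm (Gamma0 N) 2)) ((b : Module.End ℂ (CuspForm (Gamma0 N) 2)) y) = _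
        rw [hχf b, map_smul, hχf a, smul_smul, mul_comm])
      map_zero' := huniq _ _ (by rw [← hχf, zero_smul]; rfl)
      map_add' := fun a b => huniq _ _ (by
        rw [← hχf, add_smul, ← hχf, ← hχf]; rfl) }
  have hχ₀ : ∀ t : heckeAlgebra N 2 ∅, (t : Module.End ℂ (CuspForm (Gamma0 N) 2)) y = χ₀ t • y := hχf
  have hkill : ∀ t : heckeAlgebra N 2 ∅, latticeRestrictHom N ∅ t ∈ 𝔭 → χ₀ t = 0 := by
    intro t ht
    have h1 : ∀ w ∈ W, (t : Module.End ℂ (CuspForm (Gamma0 N) 2)) w = 0 := by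
      intro w hw
      induction hw using Submodule.span_induction with
      | mem z hz =>
        obtain ⟨w, rfl, hw⟩ := hz
        exact congrArg Subtype.val (hw _ ht)
      | zero => rw [map_zero]
      | add u v _ _ hu hv => rw [map_add, hu, hv, add_zero]
      | smul c u _ hu => rw [map_smul, hu, smul_zero]
    exact huniq _ _ (by rw [← hχ₀, h1 y hyW, zero_smul])
  have hint : ∀ t : heckeAlgebra N 2 ∅, IsIntegral ℤ (χ₀ t) := by
    intro t
    obtain ⟨P, hPm, hP⟩ := Algebra.IsIntegral.isIntegral (R := ℤ) (latticeRestrictHom N ∅ t)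
    refine ⟨P, hPm, ?_⟩
    have h1 : latticeRestrictHom N ∅ (Polynomial.aeval t P) = 0 := by
      rw [← Polynomial.aeval_algHom_apply]
      exact hP
    have h2 : χ₀ (Polynomial.aeval t P) = 0 := hkill _ (by rw [h1]; exact 𝔭.zero_mem)
    rw [Polynomial.aeval_def, Polynomial.hom_eval₂] at h2
    rw [← h2]
    congr 1
    exact Subsingleton.elim _ _
  let χ : heckeAlgebra N 2 ∅ →+* integralClosure ℤ ℂ :=
    χ₀.codRestrict (integralClosure ℤ ℂ) hint
  have hχ : ∀ t, ((χ t : integralClosure ℤ ℂ) : ℂ) = χ₀ t := fun t => rfl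
  have hker : RingHom.ker χ ≤ 𝔪.comap (latticeRestrictHom N ∅) := by
    intro t ht
    rw [Ideal.mem_comap]
    apply h𝔭𝔪
    by_contra hcon
    have hne : Ideal.Quotient.mk 𝔭 (latticeRestrictHom N ∅ t) ≠ 0 := fun h =>
      hcon (Ideal.Quotient.eq_zero_iff_mem.mp h)
    haveI := h𝔭
    have h1 := Ideal.comap_ne_bot_of_integral_mem (R := ℤ) hne
      (Ideal.mem_span_singleton_self (Ideal.Quotient.mk 𝔭 (latticeRestrictHom N ∅ t)))
      (Algebra.IsIntegral.isIntegral (R := ℤ) _)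
    obtain ⟨n, hn, hn0⟩ := Submodule.exists_mem_ne_zero_of_ne_bot h1
    rw [Ideal.mem_comap, Ideal.mem_span_singleton] at hn
    obtain ⟨s, hs⟩ := hn
    obtain ⟨s, rfl⟩ := Ideal.Quotient.mk_surjective s
    obtain ⟨s, rfl⟩ := latticeRestrictHom_surjective N ∅ s
    have h2 : latticeRestrictHom N ∅ ((n : heckeAlgebra N 2 ∅) - t * s) ∈ 𝔭 := by
      rw [← Ideal.Quotient.eq_zero_iff_mem, map_sub, map_sub, map_mul, map_mul, ← hs, sub_eq_zero]
      simp
    have h3 := hkill _ h2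
    rw [map_sub, map_mul, map_intCast] at h3
    have h4 : χ₀ t = 0 := by
      rw [← hχ, RingHom.mem_ker.mp ht]; rfl
    rw [h4, zero_mul, sub_zero] at h3
    exact hn0 (by exact_mod_cast h3)
  haveI hmax' : (𝔪.comap (latticeRestrictHom N ∅)).IsMaximal :=
    Ideal.comap_isMaximal_of_surjective _ (latticeRestrictHom_surjective N ∅)
  letI : Algebra (heckeAlgebra N 2 ∅) (integralClosure ℤ ℂ) := χ.toAlgebra
  haveI : Algebra.IsIntegral (heckeAlgebra N 2 ∅) (integralClosure ℤ ℂ) := by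
    constructor
    intro z
    obtain ⟨P, hPm, hP⟩ := integralClosure.isIntegral (R := ℤ) (A := ℂ) z
    refine ⟨P.map (algebraMap ℤ (heckeAlgebra N 2 ∅)), hPm.map _, ?_⟩
    rw [Polynomial.eval₂_map]
    rw [← hP]
    congr 1
    exact Subsingleton.elim _ _
  obtain ⟨𝔐, h𝔐max, h𝔐⟩ := Ideal.exists_ideal_over_maximal_of_isIntegral
    (S := integralClosure ℤ ℂ) (𝔪.comap (latticeRestrictHom N ∅)) hker
  -- the normalised eigenform
  have hTy : ∀ (ℓ : ℕ) (hℓ : ℓ.Prime) (hℓN : ¬ ℓ ∣ N), ∃ c : ℂ, CuspForm.heckeTLin 2 hℓ hℓN y = c • y :=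
    fun ℓ hℓ hℓN => hyT _ (heckeTLin_mem_heckeGenerators hℓ hℓN (Set.notMem_empty _))
  have hUy : ∀ (q : ℕ) (_ : q.Prime) (hqN : q ∣ N), ∃ c : ℂ, CuspForm.heckeULin 2 hqN y = c • y :=
    fun q hq hqN => hyT _ (heckeULin_mem_heckeGenerators hq hqN (Set.notMem_empty _))
  have ha1 : qCoeff y 1 ≠ 0 := fun h => hy0 (eq_zero_of_eigen_of_qCoeff_one_eq_zero h hTy hUy)
  refine ⟨χ, (qCoeff y 1)⁻¹ • y, 𝔐, ?_, ?_, h𝔐max, h𝔐⟩
  · refine isNormalizedEigenform_of_eigen ?_ ?_ ?_
    · rw [qCoeff_smul, inv_mul_cancel₀ ha1]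
    · intro ℓ hℓ hℓN
      obtain ⟨c, hc⟩ := hTy ℓ hℓ hℓN
      exact ⟨c, by rw [map_smul, hc, smul_comm]⟩
    · intro q hq hqN
      obtain ⟨c, hc⟩ := hUy q hq hqN
      exact ⟨c, by rw [map_smul, hc, smul_comm]⟩
  · intro t
    rw [map_smul, hχ₀, smul_comm]
    rfl

end Fermat.Agent.Eigen
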